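import Mathlib

/-!
# Row LT, tower T7, node T7.L2.3.5.4 `WBasisC`, leaf WB.C1 `ProjSeqC776` (registry row 2393):
the argument in an inner product space (helper860)

OFF-MAIN.  MATHLIB ONLY.  Nothing assumed.  ADDITIVE (new names only, suffix `860`).

`E` a complex inner product space (Mathlib convention: `inner x y` is linear in `y`), `W` a
subspace, `u` a sequence which is orthonormal on the index set `J₀`, complete for `W` (Parseval),
with finite classes `cl`, and `p j ∈ W ⊓ span {u i : cl i = cl j}` with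
`inner (p j) χ = inner (u j) χ` for `χ ∈ W`.

`projSeq_ips860`: there are `J ⊆ J₀` and a sequence `w`, orthonormal on `J`, complete for `W`,
with `w j ∈ span {p i : cl i = cl j}` and `span {p i : cl i = a} ≤ span {w j : j ∈ J, cl j = a}`.

Steps: finite orthonormal expansions (`eq_expand860`, `norm_sq_expand860`), Gram--Schmidt on a
finite index set (`exists_on_subfamily860`, from `stdOrthonormalBasis`), the identity of one class
(`class_identity860`), regrouping of a sum of nonnegative terms class by class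
(`hasSum_regroup860`).
-/

set_option autoImplicit false

open scoped ComplexConjugate InnerProductSpace

noncomputable section

namespace Fermat.Agent.LT.T7.H860

section IPS

variable {E : Type*} [NormedAddCommGroup E] [InnerProductSpace ℂ E]

/-- The sequence `w` is orthonormal on the finite index set `T`. -/
def IsON860 (T : Finset ℕ) (w : ℕ → E) : Prop :=
  ∀ i ∈ T, ∀ j ∈ T, ⟪w i, w j⟫_ℂ = if i = j then 1 else 0

/-- Two spans are orthogonal if the generators are. -/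
theorem inner_eq_zero_of_mem_span860 (s t : Set E)
    (h : ∀ x ∈ s, ∀ y ∈ t, ⟪x, y⟫_ℂ = 0) {x y : E}
    (hx : x ∈ Submodule.span ℂ s) (hy : y ∈ Submodule.span ℂ t) : ⟪x, y⟫_ℂ = 0 := by
  induction hx using Submodule.span_induction with
  | mem x hx =>
    induction hy using Submodule.span_induction with
    | mem y hy => exact h x hx y hy
    | zero => exact inner_zero_right _
    | add a b _ _ ha hb => rw [inner_add_right, ha, hb, add_zero]
    | smul c a _ ha => rw [inner_smul_right, ha, mul_zero]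
  | zero => exact inner_zero_left _
  | add a b _ _ ha hb => rw [inner_add_left, ha, hb, add_zero]
  | smul c a _ ha => rw [inner_smul_left, ha, mul_zero]

/-- A vector of a span which is orthogonal to the generators is zero. -/
theorem eq_zero_of_mem_span_of_orth860 (s : Set E) (z : E) (hz : z ∈ Submodule.span ℂ s)
    (h : ∀ y ∈ s, ⟪y, z⟫_ℂ = 0) : z = 0 := by
  have h2 : ∀ y ∈ Submodule.span ℂ s, ⟪y, z⟫_ℂ = 0 := by
    intro y hy
    induction hy using Submodule.span_induction with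
    | mem y hy => exact h y hy
    | zero => exact inner_zero_left _
    | add a b _ _ ha hb => rw [inner_add_left, ha, hb, add_zero]
    | smul c a _ ha => rw [inner_smul_left, ha, mul_zero]
  exact inner_self_eq_zero.1 (h2 z hz)

/-- The coefficient of an orthonormal expansion. -/
theorem inner_expand860 (T : Finset ℕ) (w : ℕ → E) (hw : IsON860 T w) (c : ℕ → ℂ) (i : ℕ)
    (hi : i ∈ T) : ⟪w i, ∑ j ∈ T, c j • w j⟫_ℂ = c i := by
  rw [inner_sum, Finset.sum_eq_single i]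
  · rw [inner_smul_right, hw i hi i hi, if_pos rfl, mul_one]
  · intro j hj hji
    rw [inner_smul_right, hw i hi j hj, if_neg (Ne.symm hji), mul_zero]
  · intro h
    exact absurd hi h

/-- A vector of the span of an orthonormal family is its orthonormal expansion. -/
theorem eq_expand860 (T : Finset ℕ) (w : ℕ → E) (hw : IsON860 T w) (x : E)
    (hx : x ∈ Submodule.span ℂ (w '' (T : Set ℕ))) :
    x = ∑ j ∈ T, ⟪w j, x⟫_ℂ • w j := by
  have hq : (∑ j ∈ T, ⟪w j, x⟫_ℂ • w j) ∈ Submodule.span ℂ (w '' (T : Set ℕ)) :=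
    Submodule.sum_mem _ fun j hj =>
      Submodule.smul_mem _ _ (Submodule.subset_span ⟨j, hj, rfl⟩)
  have hz := eq_zero_of_mem_span_of_orth860 (w '' (T : Set ℕ))
    (x - ∑ j ∈ T, ⟪w j, x⟫_ℂ • w j) (Submodule.sub_mem _ hx hq) ?_
  · exact sub_eq_zero.1 hz
  · rintro y ⟨i, hi, rfl⟩
    rw [inner_sub_right, inner_expand860 T w hw _ i hi, sub_self]

/-- Parseval in the span of a finite orthonormal family. -/
theorem norm_sq_expand860 (T : Finset ℕ) (w : ℕ → E) (hw : IsON860 T w) (x : E)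
    (hx : x ∈ Submodule.span ℂ (w '' (T : Set ℕ))) :
    ‖x‖ ^ 2 = ∑ j ∈ T, ‖⟪w j, x⟫_ℂ‖ ^ 2 := by
  have hxq := eq_expand860 T w hw x hx
  have h1 : ⟪x, x⟫_ℂ = ⟪∑ j ∈ T, ⟪w j, x⟫_ℂ • w j, x⟫_ℂ := by rw [← hxq]
  have h2 : ⟪∑ j ∈ T, ⟪w j, x⟫_ℂ • w j, x⟫_ℂ = ∑ j ∈ T, ((‖⟪w j, x⟫_ℂ‖ ^ 2 : ℝ) : ℂ) := by
    rw [sum_inner]
    refine Finset.sum_congr rfl fun j _ => ?_
    rw [inner_smul_left, Complex.conj_mul']
    push_cast
    rfl
  have h3 : (‖x‖ ^ 2 : ℝ) = RCLike.re ⟪x, x⟫_ℂ := norm_sq_eq_re_inner (𝕜 := ℂ) x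
  rw [h3, h1, h2, ← Complex.ofReal_sum]
  exact Complex.ofReal_re _

/-- Gram--Schmidt on a finite index set: an orthonormal family, indexed by a subset `T` of `S`,
with the same span as the `p j`, `j ∈ S`. -/
theorem exists_on_subfamily860 (S : Finset ℕ) (p : ℕ → E) :
    ∃ (T : Finset ℕ) (w : ℕ → E), T ⊆ S ∧ IsON860 T w ∧
      Submodule.span ℂ (w '' (T : Set ℕ)) = Submodule.span ℂ (p '' (S : Set ℕ)) := by
  classical
  set F : Submodule ℂ E := Submodule.span ℂ (p '' (S : Set ℕ)) with hF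
  have : FiniteDimensional ℂ F :=
    FiniteDimensional.span_of_finite ℂ ((S.finite_toSet).image p)
  have hd : Module.finrank ℂ F ≤ S.card := by
    have h1 := finrank_span_finset_le_card (R := ℂ) (S.image p)
    have h2 : (S.image p).card ≤ S.card := Finset.card_image_le
    rw [Finset.coe_image] at h1
    exact h1.trans h2
  obtain ⟨T, hTS, hTc⟩ := Finset.exists_subset_card_eq hd
  let e : T ≃ Fin (Module.finrank ℂ F) := Finset.equivFinOfCardEq hTc
  let b := stdOrthonormalBasis ℂ F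
  refine ⟨T, fun j => if h : j ∈ T then ((b (e ⟨j, h⟩) : F) : E) else 0, hTS, ?_, ?_⟩
  · intro i hi j hj
    simp only [dif_pos hi, dif_pos hj]
    rw [← Submodule.coe_inner, orthonormal_iff_ite.1 b.orthonormal]
    by_cases hij : i = j
    · subst hij
      simp
    · rw [if_neg hij, if_neg]
      intro h
      exact hij (congrArg Subtype.val (e.injective h))
  · apply le_antisymm
    · rw [Submodule.span_le]
      rintro _ ⟨j, hj, rfl⟩
      simp only [dif_pos (show j ∈ T from hj)]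
      exact (b (e ⟨j, hj⟩)).2
    · intro x hx
      have h1 : (⟨x, hx⟩ : F) ∈ Submodule.span ℂ (Set.range b) := by
        have := b.toBasis.span_eq
        rw [b.coe_toBasis] at this
        rw [this]
        exact Submodule.mem_top
      have h2 := Submodule.apply_mem_span_image_of_mem_span F.subtype h1
      have h3 : F.subtype '' Set.range b ⊆
          (fun j => if h : j ∈ T then ((b (e ⟨j, h⟩) : F) : E) else 0) '' (T : Set ℕ) := by
        rintro _ ⟨_, ⟨i, rfl⟩, rfl⟩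
        refine ⟨(e.symm i : ℕ), (e.symm i).2, ?_⟩
        simp only [dif_pos (e.symm i).2]
        simp
      exact Submodule.span_mono h3 h2

/-- **The identity of one class.**  `u` orthonormal on `S`, `p j ∈ W ⊓ span (u '' S)` with
`inner (p j) χ' = inner (u j) χ'` for `χ' ∈ W`, `w` orthonormal on `T` with the span of the
`p j`: the two partial Parseval sums of `χ ∈ W` agree. -/
theorem class_identity860 (W : Submodule ℂ E) (u p w : ℕ → E) (S T : Finset ℕ)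
    (hu : IsON860 S u) (hw : IsON860 T w)
    (hpW : ∀ j ∈ S, p j ∈ W)
    (hpE : ∀ j ∈ S, p j ∈ Submodule.span ℂ (u '' (S : Set ℕ)))
    (hpu : ∀ χ ∈ W, ∀ j ∈ S, ⟪p j, χ⟫_ℂ = ⟪u j, χ⟫_ℂ)
    (hsp : Submodule.span ℂ (w '' (T : Set ℕ)) = Submodule.span ℂ (p '' (S : Set ℕ)))
    (χ : E) (hχ : χ ∈ W) :
    ∑ j ∈ S, ‖⟪u j, χ⟫_ℂ‖ ^ 2 = ∑ j ∈ T, ‖⟪w j, χ⟫_ℂ‖ ^ 2 := by
  set x : E := ∑ j ∈ S, ⟪u j, χ⟫_ℂ • u j with hx
  set y : E := ∑ j ∈ S, ⟪u j, χ⟫_ℂ • p j with hy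
  have hxE : x ∈ Submodule.span ℂ (u '' (S : Set ℕ)) :=
    Submodule.sum_mem _ fun j hj =>
      Submodule.smul_mem _ _ (Submodule.subset_span ⟨j, hj, rfl⟩)
  have hFE : Submodule.span ℂ (p '' (S : Set ℕ)) ≤ Submodule.span ℂ (u '' (S : Set ℕ)) := by
    rw [Submodule.span_le]
    rintro _ ⟨j, hj, rfl⟩
    exact hpE j hj
  have hyF : y ∈ Submodule.span ℂ (p '' (S : Set ℕ)) :=
    Submodule.sum_mem _ fun j hj =>
      Submodule.smul_mem _ _ (Submodule.subset_span ⟨j, hj, rfl⟩)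
  -- `χ - x` is orthogonal to the span of the `u j`
  have horth : ∀ z ∈ Submodule.span ℂ (u '' (S : Set ℕ)), ⟪z, χ⟫_ℂ = ⟪z, x⟫_ℂ := by
    intro z hz
    have h0 : ⟪z, χ - x⟫_ℂ = 0 := by
      refine inner_eq_zero_of_mem_span860 (u '' (S : Set ℕ)) {χ - x} ?_ hz
        (Submodule.subset_span rfl)
      rintro _ ⟨k, hk, rfl⟩ _ rfl
      rw [inner_sub_right, hx, inner_expand860 S u hu _ k hk, sub_self]
    rw [inner_sub_right] at h0
    exact sub_eq_zero.1 h0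
  -- symmetry
  have hsym : ∀ i ∈ S, ∀ j ∈ S, ⟪u i, p j⟫_ℂ = ⟪p i, u j⟫_ℂ := by
    intro i hi j hj
    have h1 : ⟪p i, p j⟫_ℂ = ⟪u i, p j⟫_ℂ := hpu (p j) (hpW j hj) i hi
    have h2 : ⟪p j, p i⟫_ℂ = ⟪u j, p i⟫_ℂ := hpu (p i) (hpW i hi) j hj
    rw [← h1, ← inner_conj_symm (p i) (p j), h2, inner_conj_symm]
  have h1 : ∀ i ∈ S, ⟪u i, y⟫_ℂ = ⟪u i, χ⟫_ℂ := by
    intro i hi
    have ha : ⟪u i, y⟫_ℂ = ⟪p i, x⟫_ℂ := by
      rw [hy, hx, inner_sum, inner_sum]
      refine Finset.sum_congr rfl fun j hj => ?_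
      rw [inner_smul_right, inner_smul_right, hsym i hi j hj]
    rw [ha, ← horth (p i) (hpE i hi)]
    exact hpu χ hχ i hi
  have hyx : y = x := by
    have hz := eq_zero_of_mem_span_of_orth860 (u '' (S : Set ℕ)) (y - x)
      (Submodule.sub_mem _ (hFE hyF) hxE) ?_
    · exact sub_eq_zero.1 hz
    · rintro _ ⟨i, hi, rfl⟩
      rw [inner_sub_right, h1 i hi, hx, inner_expand860 S u hu _ i hi, sub_self]
  have hxF : x ∈ Submodule.span ℂ (w '' (T : Set ℕ)) := by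
    rw [hsp, ← hyx]
    exact hyF
  have e1 := norm_sq_expand860 S u hu x hxE
  have e2 := norm_sq_expand860 T w hw x hxF
  have e3 : ∑ j ∈ S, ‖⟪u j, x⟫_ℂ‖ ^ 2 = ∑ j ∈ S, ‖⟪u j, χ⟫_ℂ‖ ^ 2 := by
    refine Finset.sum_congr rfl fun j hj => ?_
    rw [hx, inner_expand860 S u hu _ j hj]
  have e4 : ∑ j ∈ T, ‖⟪w j, x⟫_ℂ‖ ^ 2 = ∑ j ∈ T, ‖⟪w j, χ⟫_ℂ‖ ^ 2 := by
    refine Finset.sum_congr rfl fun j hj => ?_
    have hwj : w j ∈ Submodule.span ℂ (u '' (S : Set ℕ)) := by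
      apply hFE
      rw [← hsp]
      exact Submodule.subset_span ⟨j, hj, rfl⟩
    rw [horth (w j) hwj]
  rw [← e3, ← e1, e2, e4]

end IPS

/-- One half of the regrouping: every partial sum of `f` on `J₀` is bounded by a partial sum of
`g` on `J`. -/
theorem partial_le_partial860 {A : Type*} (f g : ℕ → ℝ) (hf : ∀ j, 0 ≤ f j)
    (J₀ J : Set ℕ) (c : ℕ → A) (S T : A → Finset ℕ)
    (hS : ∀ a j, j ∈ S a ↔ j ∈ J₀ ∧ c j = a) (hT : ∀ a j, j ∈ T a ↔ j ∈ J ∧ c j = a)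
    (heq : ∀ a, ∑ j ∈ S a, f j = ∑ j ∈ T a, g j) (B : Finset ℕ) :
    ∃ B' : Finset ℕ, ∑ j ∈ B, J₀.indicator f j ≤ ∑ j ∈ B', J.indicator g j := by
  classical
  set C : Finset A := (B.filter (· ∈ J₀)).image c with hC
  refine ⟨C.biUnion T, ?_⟩
  have hdS : ((C : Set A)).PairwiseDisjoint S := by
    intro a _ b _ hab
    rw [Function.onFun, Finset.disjoint_left]
    intro j hja hjb
    exact hab (((hS a j).1 hja).2.symm.trans ((hS b j).1 hjb).2)
  have hdT : ((C : Set A)).PairwiseDisjoint T := by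
    intro a _ b _ hab
    rw [Function.onFun, Finset.disjoint_left]
    intro j hja hjb
    exact hab (((hT a j).1 hja).2.symm.trans ((hT b j).1 hjb).2)
  have e1 : ∑ j ∈ B, J₀.indicator f j = ∑ j ∈ B.filter (· ∈ J₀), f j := by
    rw [Finset.sum_filter]
    refine Finset.sum_congr rfl fun j _ => ?_
    by_cases hj : j ∈ J₀
    · rw [Set.indicator_of_mem hj, if_pos hj]
    · rw [Set.indicator_of_notMem hj, if_neg hj]
  have e2 : ∑ j ∈ B.filter (· ∈ J₀), f j ≤ ∑ j ∈ C.biUnion S, f j := by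
    refine Finset.sum_le_sum_of_subset_of_nonneg ?_ fun j _ _ => hf j
    intro j hj
    rw [Finset.mem_biUnion]
    refine ⟨c j, Finset.mem_image_of_mem c hj, (hS _ _).2 ⟨(Finset.mem_filter.1 hj).2, rfl⟩⟩
  have e3 : ∑ j ∈ C.biUnion S, f j = ∑ j ∈ C.biUnion T, g j := by
    rw [Finset.sum_biUnion hdS, Finset.sum_biUnion hdT]
    exact Finset.sum_congr rfl fun a _ => heq a
  have e4 : ∑ j ∈ C.biUnion T, g j = ∑ j ∈ C.biUnion T, J.indicator g j := by
    refine Finset.sum_congr rfl fun j hj => ?_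
    obtain ⟨a, _, hja⟩ := Finset.mem_biUnion.1 hj
    rw [Set.indicator_of_mem ((hT a j).1 hja).1]
  rw [e1, ← e4, ← e3]
  exact e2

/-- **Regrouping of a sum of nonnegative terms class by class.** -/
theorem hasSum_regroup860 {A : Type*} (f g : ℕ → ℝ) (hf : ∀ j, 0 ≤ f j) (hg : ∀ j, 0 ≤ g j)
    (J₀ J : Set ℕ) (c : ℕ → A) (S T : A → Finset ℕ)
    (hS : ∀ a j, j ∈ S a ↔ j ∈ J₀ ∧ c j = a) (hT : ∀ a j, j ∈ T a ↔ j ∈ J ∧ c j = a)
    (heq : ∀ a, ∑ j ∈ S a, f j = ∑ j ∈ T a, g j) (s : ℝ)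
    (h : HasSum (fun j : J₀ => f j) s) : HasSum (fun j : J => g j) s := by
  have h' : HasSum (J₀.indicator f) s := hasSum_subtype_iff_indicator.1 h
  have hf' : ∀ j, 0 ≤ J₀.indicator f j := fun j => Set.indicator_nonneg (fun j _ => hf j) j
  have hg' : ∀ j, 0 ≤ J.indicator g j := fun j => Set.indicator_nonneg (fun j _ => hg j) j
  have hlub := isLUB_hasSum hf' h'
  refine hasSum_subtype_iff_indicator.2 (hasSum_of_isLUB_of_nonneg s hg' ⟨?_, ?_⟩)
  · rintro _ ⟨B, rfl⟩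
    obtain ⟨B', hB'⟩ := partial_le_partial860 g f hg J J₀ c T S hT hS (fun a => (heq a).symm) B
    exact hB'.trans (hlub.1 ⟨B', rfl⟩)
  · intro b hb
    refine hlub.2 ?_
    rintro _ ⟨B, rfl⟩
    obtain ⟨B', hB'⟩ := partial_le_partial860 f g hf J₀ J c S T hS hT heq B
    exact hB'.trans (hb ⟨B', rfl⟩)

section IPS2

variable {E : Type*} [NormedAddCommGroup E] [InnerProductSpace ℂ E]

/-- **The statement in an inner product space.** -/
theorem projSeq_ips860 {A : Type*} (W : Submodule ℂ E) (u p : ℕ → E) (J₀ : Set ℕ) (cl : ℕ → A)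
    (hon : ∀ i ∈ J₀, ∀ j ∈ J₀, ⟪u i, u j⟫_ℂ = if i = j then 1 else 0)
    (hpars : ∀ χ ∈ W, HasSum (fun j : J₀ => ‖⟪u j, χ⟫_ℂ‖ ^ 2) (‖χ‖ ^ 2))
    (hfin : ∀ j₀ ∈ J₀, {j : ℕ | j ∈ J₀ ∧ cl j = cl j₀}.Finite)
    (hpW : ∀ j ∈ J₀, p j ∈ W)
    (hpE : ∀ j ∈ J₀, p j ∈ Submodule.span ℂ {f : E | ∃ i : ℕ, i ∈ J₀ ∧ cl i = cl j ∧ f = u i})
    (hpu : ∀ χ ∈ W, ∀ j ∈ J₀, ⟪p j, χ⟫_ℂ = ⟪u j, χ⟫_ℂ) :
    ∃ (w : ℕ → E) (J : Set ℕ), J ⊆ J₀ ∧
      (∀ j ∈ J, w j ∈ Submodule.span ℂ {f : E | ∃ i : ℕ, i ∈ J₀ ∧ cl i = cl j ∧ f = p i}) ∧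
      (∀ i ∈ J, ∀ j ∈ J, ⟪w i, w j⟫_ℂ = if i = j then 1 else 0) ∧
      (∀ χ ∈ W, HasSum (fun j : J => ‖⟪w j, χ⟫_ℂ‖ ^ 2) (‖χ‖ ^ 2)) ∧
      ∀ a : A, Submodule.span ℂ {f : E | ∃ i : ℕ, i ∈ J₀ ∧ cl i = a ∧ f = p i} ≤
        Submodule.span ℂ {f : E | ∃ j : ℕ, j ∈ J ∧ cl j = a ∧ f = w j} := by
  classical
  -- all fibres are finite
  have hfin' : ∀ a : A, {j : ℕ | j ∈ J₀ ∧ cl j = a}.Finite := by
    intro a
    by_cases h : ∃ j₀, j₀ ∈ J₀ ∧ cl j₀ = a
    · obtain ⟨j₀, hj₀, rfl⟩ := h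
      exact hfin j₀ hj₀
    · have h0 : {j : ℕ | j ∈ J₀ ∧ cl j = a} = ∅ := by
        ext j
        simp only [Set.mem_ofPred_eq, Set.mem_empty_iff_false, iff_false]
        exact fun hj => h ⟨j, hj⟩
      rw [h0]
      exact Set.finite_empty
  set Sa : A → Finset ℕ := fun a => (hfin' a).toFinset with hSa
  have hSmem : ∀ a j, j ∈ Sa a ↔ j ∈ J₀ ∧ cl j = a := fun a j => by
    simp only [hSa, Set.Finite.mem_toFinset, Set.mem_ofPred_eq]
  have hset : ∀ (v : ℕ → E) (a : A),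
      {f : E | ∃ i : ℕ, i ∈ J₀ ∧ cl i = a ∧ f = v i} = v '' (Sa a : Set ℕ) := by
    intro v a
    ext f
    constructor
    · rintro ⟨i, hi, hia, rfl⟩
      exact ⟨i, (hSmem a i).2 ⟨hi, hia⟩, rfl⟩
    · rintro ⟨i, hi, rfl⟩
      have := (hSmem a i).1 hi
      exact ⟨i, this.1, this.2, rfl⟩
  choose Tf wf hTsub hTon hTsp using fun a : A => exists_on_subfamily860 (Sa a) p
  set J : Set ℕ := {j | j ∈ Tf (cl j)} with hJ
  set w : ℕ → E := fun j => wf (cl j) j with hw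
  have hTmem : ∀ a j, j ∈ Tf a ↔ j ∈ J ∧ cl j = a := by
    intro a j
    constructor
    · intro hj
      have h1 := (hSmem a j).1 (hTsub a hj)
      refine ⟨?_, h1.2⟩
      show j ∈ Tf (cl j)
      rw [h1.2]
      exact hj
    · rintro ⟨hj, rfl⟩
      exact hj
  have hJsub : J ⊆ J₀ := fun j hj => ((hSmem _ j).1 (hTsub _ hj)).1
  have huS : ∀ a, IsON860 (Sa a) u := fun a i hi j hj =>
    hon i ((hSmem a i).1 hi).1 j ((hSmem a j).1 hj).1
  have hwimg : ∀ a, w '' (Tf a : Set ℕ) = wf a '' (Tf a : Set ℕ) := by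
    intro a
    refine Set.image_congr fun j hj => ?_
    have : cl j = a := ((hTmem a j).1 hj).2
    simp only [hw, this]
  have hwT : ∀ a, IsON860 (Tf a) w := by
    intro a i hi j hj
    have hi' : cl i = a := ((hTmem a i).1 hi).2
    have hj' : cl j = a := ((hTmem a j).1 hj).2
    simp only [hw, hi', hj']
    exact hTon a i hi j hj
  have hwsp : ∀ a, Submodule.span ℂ (w '' (Tf a : Set ℕ))
      = Submodule.span ℂ (p '' (Sa a : Set ℕ)) := by
    intro a
    rw [hwimg a]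
    exact hTsp a
  have hpE' : ∀ a, ∀ j ∈ Sa a, p j ∈ Submodule.span ℂ (u '' (Sa a : Set ℕ)) := by
    intro a j hj
    have h1 := (hSmem a j).1 hj
    have h2 := hpE j h1.1
    rw [hset u (cl j), h1.2] at h2
    exact h2
  have hFE : ∀ a, Submodule.span ℂ (p '' (Sa a : Set ℕ))
      ≤ Submodule.span ℂ (u '' (Sa a : Set ℕ)) := by
    intro a
    rw [Submodule.span_le]
    rintro _ ⟨k, hk, rfl⟩
    exact hpE' a k hk
  refine ⟨w, J, hJsub, ?_, ?_, ?_, ?_⟩
  · intro j hj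
    rw [hset p (cl j), ← hwsp (cl j)]
    exact Submodule.subset_span ⟨j, hj, rfl⟩
  · intro i hi j hj
    by_cases hc : cl i = cl j
    · have hi' : i ∈ Tf (cl j) := by
        rw [← hc]
        exact hi
      exact hwT (cl j) i hi' j hj
    · have hij : i ≠ j := fun h => hc (by rw [h])
      rw [if_neg hij]
      have hwi : w i ∈ Submodule.span ℂ (u '' (Sa (cl i) : Set ℕ)) :=
        hFE _ (by rw [← hwsp]; exact Submodule.subset_span ⟨i, hi, rfl⟩)
      have hwj : w j ∈ Submodule.span ℂ (u '' (Sa (cl j) : Set ℕ)) :=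
        hFE _ (by rw [← hwsp]; exact Submodule.subset_span ⟨j, hj, rfl⟩)
      refine inner_eq_zero_of_mem_span860 _ _ ?_ hwi hwj
      rintro _ ⟨k, hk, rfl⟩ _ ⟨l, hl, rfl⟩
      have hk' := (hSmem _ k).1 hk
      have hl' := (hSmem _ l).1 hl
      rw [hon k hk'.1 l hl'.1, if_neg]
      rintro rfl
      exact hc (hk'.2.symm.trans hl'.2)
  · intro χ hχ
    refine hasSum_regroup860 (fun j => ‖⟪u j, χ⟫_ℂ‖ ^ 2) (fun j => ‖⟪w j, χ⟫_ℂ‖ ^ 2)
      (fun j => sq_nonneg _) (fun j => sq_nonneg _) J₀ J cl Sa Tf hSmem hTmem ?_ _ (hpars χ hχ)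
    intro a
    exact class_identity860 W u p w (Sa a) (Tf a) (huS a) (hwT a)
      (fun j hj => hpW j ((hSmem a j).1 hj).1) (hpE' a)
      (fun χ' hχ' j hj => hpu χ' hχ' j ((hSmem a j).1 hj).1) (hwsp a) χ hχ
  · intro a
    rw [hset p a, ← hwsp a]
    refine Submodule.span_mono ?_
    rintro _ ⟨j, hj, rfl⟩
    have := (hTmem a j).1 hj
    exact ⟨j, this.1, this.2, rfl⟩

end IPS2

end Fermat.Agent.LT.T7.H860

end
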