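import Mathlib
import Fermat.Agent.LT.T7.H776.AbsSpec
import Fermat.Agent.LT.T7.H860.ProjSeqCore

/-!
# Row LT, tower T7, node T7.L2.3.5.4 `WBasisC`, leaf WB.C1 `ProjSeqC776` (registry row 2393)
(helper860)

OFF-MAIN.  MATHLIB ONLY (plus the frozen Spec `LT/T7/H776/AbsSpec.lean`, helper776@c8c37e749,
sha256 9c373ad844fa8253, byte-identical copy).  Nothing assumed.  ADDITIVE.

    projSeqC860 : Fermat.Agent.LT.T7.WB776.ProjSeqC776

Proof: the form makes the subspace `Vm` an inner product space (`InnerProductSpace.Core`, with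
`inner x y = form y x`); the members `u j`, `P (u j)` (`j ∈ J₀`) are moved to `Vm`, the statement
in an inner product space is `projSeq_ips860` (`ProjSeqCore.lean`), and the spans are moved back
along the inclusion of `Vm`.  `P` is used for the exhaustion only (`x = P x` for `x ∈ Wm`).
-/

set_option autoImplicit false
set_option linter.style.haveILetI false

open scoped ComplexConjugate InnerProductSpace

noncomputable section

namespace Fermat.Agent.LT.T7.H860

section Transfer

variable {M : Type} [AddCommGroup M] [Module ℂ M]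

/-- A member of a span in a subspace lies in the span of the images. -/
theorem coe_mem_span860 (Vm : Submodule ℂ M) (s : Set Vm) (t : Set M)
    (hst : ∀ x ∈ s, (x : M) ∈ t) {x : Vm} (hx : x ∈ Submodule.span ℂ s) :
    (x : M) ∈ Submodule.span ℂ t := by
  have h1 := Submodule.apply_mem_span_image_of_mem_span Vm.subtype hx
  refine Submodule.span_mono ?_ h1
  rintro _ ⟨y, hy, rfl⟩
  exact hst y hy

/-- A member of the subspace which lies in the span of the images lies in the span. -/
theorem mem_span_of_coe_mem860 (Vm : Submodule ℂ M) (s : Set Vm) (t : Set M)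
    (hts : ∀ y ∈ t, ∃ x ∈ s, (x : M) = y) {x : Vm} (hx : (x : M) ∈ Submodule.span ℂ t) :
    x ∈ Submodule.span ℂ s := by
  have h1 : Submodule.span ℂ t ≤ Submodule.map Vm.subtype (Submodule.span ℂ s) := by
    rw [Submodule.span_le]
    intro y hy
    obtain ⟨z, hz, rfl⟩ := hts y hy
    exact ⟨z, Submodule.subset_span hz, rfl⟩
  obtain ⟨z, hz, hzx⟩ := h1 hx
  have : z = x := Subtype.ext hzx
  rw [← this]
  exact hz

end Transfer

/-- **LEAF WB.C1 = PROJ-SEQ** (registry row 2393). -/
theorem projSeqC860 : Fermat.Agent.LT.T7.WB776.ProjSeqC776 := by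
  intro M _ _ form Vm Wm A u J₀ cl P hWV hadd hsmul hsymm hpos hdef huV hu1 hu0 hpars hfin
    hPW hPE hPfix hPform
  classical
  -- the inner product space structure on `Vm` (`inner x y = form y x`)
  let cd : InnerProductSpace.Core ℂ Vm :=
    { inner := fun x y => form (y : M) (x : M)
      conj_inner_symm := fun x y => (hsymm (x : M) x.2 (y : M) y.2).symm
      re_inner_nonneg := fun x => hpos (x : M) x.2
      add_left := fun x y z => by
        show form (z : M) ((x + y : Vm) : M) = form (z : M) (x : M) + form (z : M) (y : M)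
        rw [Submodule.coe_add, hsymm _ (Vm.add_mem x.2 y.2) _ z.2, hadd _ x.2 _ y.2 _ z.2,
          map_add, ← hsymm _ x.2 _ z.2, ← hsymm _ y.2 _ z.2]
      smul_left := fun x y r => by
        show form (y : M) ((r • x : Vm) : M) = conj r * form (y : M) (x : M)
        rw [Submodule.coe_smul, hsymm _ (Vm.smul_mem r x.2) _ y.2, hsmul r _ x.2 _ y.2,
          map_mul, ← hsymm _ x.2 _ y.2]
      definite := fun x hx => Subtype.ext (hdef (x : M) x.2 hx) }
  letI : NormedAddCommGroup Vm := @InnerProductSpace.Core.toNormedAddCommGroup ℂ Vm _ _ _ cd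
  letI : InnerProductSpace ℂ Vm := InnerProductSpace.ofCore cd.toCore
  have hinner : ∀ x y : Vm, ⟪x, y⟫_ℂ = form (y : M) (x : M) := fun _ _ => rfl
  have hnorm : ∀ x : Vm, ‖x‖ ^ 2 = (form (x : M) (x : M)).re := fun x => by
    rw [norm_sq_eq_re_inner (𝕜 := ℂ) x, hinner]
    rfl
  -- the data in `Vm`
  set W' : Submodule ℂ Vm := Submodule.comap Vm.subtype Wm with hW'
  set u' : ℕ → Vm := fun j => if h : j ∈ J₀ then ⟨u j, huV j h⟩ else 0 with hu'
  set p' : ℕ → Vm := fun j => if h : j ∈ J₀ then ⟨P (u j), hWV (hPW j h)⟩ else 0 with hp'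
  have hu'c : ∀ j ∈ J₀, ((u' j : Vm) : M) = u j := fun j hj => by
    simp only [hu', dif_pos hj]
  have hp'c : ∀ j ∈ J₀, ((p' j : Vm) : M) = P (u j) := fun j hj => by
    simp only [hp', dif_pos hj]
  have key := projSeq_ips860 (E := Vm) W' u' p' J₀ cl ?_ ?_ hfin ?_ ?_ ?_
  · obtain ⟨w, J, hJ, hwF, hwon, hwpars, hwex⟩ := key
    refine ⟨fun j => ((w j : Vm) : M), J, hJ, ?_, ?_, ?_, ?_, ?_⟩
    · intro j hj
      refine coe_mem_span860 Vm _ _ ?_ (hwF j hj)
      rintro _ ⟨i, hi, hic, rfl⟩
      exact ⟨i, hi, hic, hp'c i hi⟩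
    · intro j hj
      have := hwon j hj j hj
      rw [if_pos rfl, hinner] at this
      exact this
    · intro i hi j hj hij
      have := hwon j hj i hi
      rw [if_neg (Ne.symm hij), hinner] at this
      exact this
    · intro χ hχ
      have h1 := hwpars ⟨χ, hWV hχ⟩ hχ
      rw [hnorm] at h1
      exact h1
    · intro j₀ hj₀ x hx hxE
      have h1 : P x ∈ Submodule.span ℂ {f : M | ∃ i : ℕ, i ∈ J₀ ∧ cl i = cl j₀ ∧ f = P (u i)} := by
        refine Submodule.span_mono ?_ (Submodule.apply_mem_span_image_of_mem_span P hxE)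
        rintro _ ⟨_, ⟨i, hi, hic, rfl⟩, rfl⟩
        exact ⟨i, hi, hic, rfl⟩
      rw [hPfix x hx] at h1
      have h2 : (⟨x, hWV hx⟩ : Vm) ∈
          Submodule.span ℂ {f : Vm | ∃ i : ℕ, i ∈ J₀ ∧ cl i = cl j₀ ∧ f = p' i} := by
        refine mem_span_of_coe_mem860 Vm _ _ ?_ h1
        rintro _ ⟨i, hi, hic, rfl⟩
        exact ⟨p' i, ⟨i, hi, hic, rfl⟩, hp'c i hi⟩
      have h3 := hwex (cl j₀) h2
      refine coe_mem_span860 Vm _ _ ?_ h3
      rintro _ ⟨j, hj, hjc, rfl⟩
      exact ⟨j, hj, hjc, rfl⟩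
  · -- orthonormality of `u'`
    intro i hi j hj
    rw [hinner, hu'c i hi, hu'c j hj]
    by_cases hij : i = j
    · subst hij
      rw [if_pos rfl]
      exact hu1 i hi
    · rw [if_neg hij]
      exact hu0 j hj i hi (Ne.symm hij)
  · -- Parseval
    intro χ hχ
    have h1 := hpars (χ : M) hχ
    rw [hnorm]
    have h2 : (fun j : J₀ => ‖⟪u' j, χ⟫_ℂ‖ ^ 2) = fun j : J₀ => ‖form (χ : M) (u j)‖ ^ 2 := by
      funext j
      rw [hinner, hu'c j j.2]
    rw [h2]
    exact h1
  · -- `p' j ∈ W'`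
    intro j hj
    show ((p' j : Vm) : M) ∈ Wm
    rw [hp'c j hj]
    exact hPW j hj
  · -- `p' j` in the class space
    intro j hj
    refine mem_span_of_coe_mem860 Vm _ _ ?_ (by rw [hp'c j hj]; exact hPE j hj)
    rintro _ ⟨i, hi, hic, rfl⟩
    exact ⟨u' i, ⟨i, hi, hic, rfl⟩, hu'c i hi⟩
  · -- the form on the `p' j`
    intro χ hχ j hj
    rw [hinner, hinner, hp'c j hj, hu'c j hj]
    exact hPform (χ : M) hχ j hj

end Fermat.Agent.LT.T7.H860

end
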